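/-
Program DS (S48, Deligne–Serre), package (C), row C5, leaf GN: GAUSS NORMALISATION at level
`(M, P)` (the `Γ₁`-port of `G/GN.lean`, part 3 "over `ℚ̄`").

* `dscgn_good_of_model` : an integral series of `dscFieldC E M 1` (`E` a number field) gives a good
  integral element;
* `dscgn_good_of_gen`   : AUTOMATIC GOODNESS: an integral series whose generic fibre lies in
  `dscFieldBar M 1` is good, i.e. its reduction lies in `dscFieldC k M P` (`ℓ ∤ M P`);
* `dscgn_normal'`, `dscgn_normal` : every `f ≠ 0` of `dscFieldBar M 1` is `c · u₁ / u₂` with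
  `u₁, u₂` good integral series with nonzero reductions.

The abstract part of `G/GN.lean` (`ggn_red_mem_adjoin`, `ggn_charZero`, `ggn_isLocalHom`,
`ggn_spec_ne_zero`) and all the generic `S18` machinery are imported as they are.
-/
import Mathlib
import Fermat.Agent.G.GN
import Fermat.Agent.DS.C.Good
import Fermat.Agent.DS.C.V.Top
import Fermat.Agent.DS.C.D.Main

set_option autoImplicit false
set_option linter.unusedSectionVars false
set_option synthInstance.maxHeartbeats 400000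
set_option linter.style.haveILetI false

noncomputable section

namespace Fermat.Agent.DS

open ModularCurve AlgebraicCurve IsLocalRing Polynomial IntermediateField Fermat.Agent.S18
  Fermat.Agent.G

variable (M : ℕ) [NeZero M] {ℓ : ℕ} [Fact ℓ.Prime]
variable (A : ValuationSubring (AlgebraicClosure ℚ))

/-- an integral series of `dscFieldC E M 1` (`E` a number field) gives a good integral element. -/
theorem dscgn_good_of_model (hM : 6 ≤ M) (hℓ : ¬ ℓ ∣ M) (hA : A.LiesOverPrime ℓ)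
    (E : IntermediateField ℚ (AlgebraicClosure ℚ)) [FiniteDimensional ℚ E]
    (a : LaurentSeries (s18dVal A E))
    (ha : s18vIncl (s18dVal A E) E a ∈ dscFieldC E M 1) :
    DscGood M 1 A (coeffMap (s18dIncl A E) a) := by
  haveI : IsDiscreteValuationRing (s18dVal A E) := s18d_isDVR A E hA
  obtain ⟨ϖ, hϖ⟩ := IsDiscreteValuationRing.exists_irreducible (s18dVal A E)
  haveI : CharZero (s18dVal A E) := ggn_charZero A E
  have hℓmem := s18d_natCast_mem (ℓ := ℓ) A E hA
  refine ⟨?_, ?_⟩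
  · rw [← s18d_up_incl]
    exact dscd_up_mem E M 1 _ ha
  · have h1 := dscv_res_mem (L₀ := E) hϖ hℓmem M hM hℓ a ha
    haveI : IsLocalHom (s18dIncl A E) := ggn_isLocalHom A E
    have h2 := dscd_coeffMap_mem (ResidueField.map (s18dIncl A E)) M 1 h1
    have e : coeffMap (ResidueField.map (s18dIncl A E)) (s18vRes (s18dVal A E) a) =
        coeffMap (residue A) (coeffMap (s18dIncl A E) a) := by
      rw [coeffMap_coeffMap, coeffMap_coeffMap]
      rfl
    rw [← e]
    exact h2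

/-- AUTOMATIC GOODNESS: an integral series whose generic fibre lies in `dscFieldBar M 1` is good,
i.e. its reduction lies in `dscFieldC k M P` (`ℓ ∤ M P`). -/
theorem dscgn_good_of_gen (hM : 6 ≤ M) (hℓ : ¬ ℓ ∣ M) (hA : A.LiesOverPrime ℓ) (U : LaurentSeries A)
    (hU : coeffMap A.subtype U ∈ dscFieldBar M 1) : DscGood M 1 A U := by
  obtain ⟨E, hfd, z, hz, hzU⟩ := dscd_exists_model M 1 _ hU
  haveI := hfd
  obtain ⟨v, hv1, hv2⟩ := s18dd_exists_coeff (A := A) U z hzU
  have h := dscgn_good_of_model M A hM hℓ hA E v (by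
    show s18vIncl (s18dVal A E) E v ∈ _
    have : s18vIncl (s18dVal A E) E v = z := hv2
    rw [this]; exact hz)
  have e : coeffMap (s18dIncl A E) v = U := hv1
  rwa [e] at h

/-- GAUSS NORMALISATION: every nonzero `f ∈ dscFieldBar M 1` is `c · u₁/u₂` with `c ∈ ℚ̄ˣ` and
`u₁, u₂` good integral series with nonzero reductions (`ℓ ∤ M P`). -/
theorem dscgn_normal' (hM : 6 ≤ M) (hℓ : ¬ ℓ ∣ M) (hA : A.LiesOverPrime ℓ)
    (f : dscFieldBar M 1) (hf : f ≠ 0) :
    ∃ (c : AlgebraicClosure ℚ) (u₁ u₂ : LaurentSeries A)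
      (h₁ : DscGood M 1 A u₁) (h₂ : DscGood M 1 A u₂),
      c ≠ 0 ∧ h₁.spec ≠ 0 ∧ h₂.spec ≠ 0 ∧
        f * h₂.gen = algebraMap (AlgebraicClosure ℚ) (dscFieldBar M 1) c * h₁.gen := by
  obtain ⟨E, hfd, z, hz, hzf⟩ := dscd_exists_model M 1 f f.2
  haveI := hfd
  haveI : IsDiscreteValuationRing (s18dVal A E) := s18d_isDVR A E hA
  obtain ⟨ϖ, hϖ⟩ := IsDiscreteValuationRing.exists_irreducible (s18dVal A E)
  haveI : CharZero (s18dVal A E) := ggn_charZero A E
  obtain ⟨a, b, ha, hb, hb0, hab⟩ :=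
    dscv_gen (A₀ := s18dVal A E) (L₀ := E) M 1 ⟨z, hz⟩
  have hz0 : z ≠ 0 := by
    rintro rfl
    apply hf
    apply Subtype.ext
    rw [← hzf, map_zero]
    rfl
  have hinj : Function.Injective (s18vIncl (s18dVal A E) E) := by
    intro x y hxy
    ext k
    have := congrArg (fun s => HahnSeries.coeff s k) hxy
    simpa using this
  have ha0 : a ≠ 0 := by
    rintro rfl
    rw [map_zero] at hab
    rcases mul_eq_zero.mp hab with h | h
    · exact hz0 h
    · exact hb0 (hinj (by rw [h, map_zero]))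
  obtain ⟨n, a', rfl, ha'⟩ := s18vg_exists_primitive hϖ a ha0
  obtain ⟨m, b', rfl, hb'⟩ := s18vg_exists_primitive hϖ b hb0
  have hϖn : ∀ k : ℕ, ϖ ^ k ≠ 0 := fun k => pow_ne_zero _ hϖ.ne_zero
  have ha'm := s18vg_mem_of_C_mul (F := dscFieldC E M 1) (ϖ ^ n) (hϖn n) a' ha
  have hb'm := s18vg_mem_of_C_mul (F := dscFieldC E M 1) (ϖ ^ m) (hϖn m) b' hb
  have h₁ := dscgn_good_of_model M A hM hℓ hA E a' ha'm
  have h₂ := dscgn_good_of_model M A hM hℓ hA E b' hb'm
  have hc0 : algebraMap (s18dVal A E) E (ϖ ^ n) / algebraMap (s18dVal A E) E (ϖ ^ m) ≠ 0 := by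
    refine div_ne_zero ?_ ?_
    · rw [Ne, map_eq_zero_iff _ (IsFractionRing.injective (s18dVal A E) E)]; exact hϖn n
    · rw [Ne, map_eq_zero_iff _ (IsFractionRing.injective (s18dVal A E) E)]; exact hϖn m
  refine ⟨algebraMap E (AlgebraicClosure ℚ)
    (algebraMap (s18dVal A E) E (ϖ ^ n) / algebraMap (s18dVal A E) E (ϖ ^ m)), _, _, h₁, h₂,
    ?_, ?_, ?_, ?_⟩
  · rw [Ne, map_eq_zero_iff _ (algebraMap E (AlgebraicClosure ℚ)).injective]
    exact hc0
  · intro h
    exact ggn_spec_ne_zero A E a' ha' (congrArg Subtype.val h)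
  · intro h
    exact ggn_spec_ne_zero A E b' hb' (congrArg Subtype.val h)
  · apply Subtype.ext
    show (f : LaurentSeries (AlgebraicClosure ℚ)) * coeffMap A.subtype (coeffMap (s18dIncl A E) b') =
      algebraMap (AlgebraicClosure ℚ) (LaurentSeries (AlgebraicClosure ℚ)) _ *
        coeffMap A.subtype (coeffMap (s18dIncl A E) a')
    rw [← s18d_up_incl, ← s18d_up_incl, ← hzf, ← s18dd_coeffMap_algebraMap, ← map_mul, ← map_mul]
    congr 1
    rw [map_mul, map_mul, s18vg_incl_C, s18vg_incl_C] at hab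
    have hm0 : algebraMap E (LaurentSeries E) (algebraMap (s18dVal A E) E (ϖ ^ m)) ≠ 0 := by
      rw [Ne, map_eq_zero_iff _ (algebraMap E (LaurentSeries E)).injective,
        map_eq_zero_iff _ (IsFractionRing.injective (s18dVal A E) E)]
      exact hϖn m
    rw [map_div₀, div_mul_eq_mul_div, eq_div_iff hm0, ← hab]
    ring

/-- GAUSS NORMALISATION, in the shape of `G/EsTor/Spec.lean`: `c · f · u₂ = u₁`. -/
theorem dscgn_normal (hM : 6 ≤ M) (hℓ : ¬ ℓ ∣ M) (hA : A.LiesOverPrime ℓ)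
    (f : dscFieldBar M 1) (hf : f ≠ 0) :
    ∃ (c : AlgebraicClosure ℚ) (u₁ u₂ : LaurentSeries A) (h₁ : DscGood M 1 A u₁)
      (h₂ : DscGood M 1 A u₂), c ≠ 0 ∧ h₁.spec ≠ 0 ∧ h₂.spec ≠ 0 ∧
        algebraMap (AlgebraicClosure ℚ) (dscFieldBar M 1) c * f * h₂.gen = h₁.gen := by
  obtain ⟨c, u₁, u₂, h₁, h₂, hc, hs₁, hs₂, hfu⟩ := dscgn_normal' M A hM hℓ hA f hf
  refine ⟨c⁻¹, u₁, u₂, h₁, h₂, inv_ne_zero hc, hs₁, hs₂, ?_⟩
  have hc' : algebraMap (AlgebraicClosure ℚ) (dscFieldBar M 1) c ≠ 0 := by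
    intro h0
    exact hc ((map_eq_zero_iff _ (algebraMap (AlgebraicClosure ℚ)
      (dscFieldBar M 1)).injective).mp h0)
  rw [mul_assoc, hfu, map_inv₀, ← mul_assoc, inv_mul_cancel₀ hc', one_mul]

end Fermat.Agent.DS
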